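import Fermat.Agent.LT.T3.H534.PoissonAbs
import Fermat.Agent.LT.A2.Kernel
import Fermat.Agent.LT.T1.Spec
import Fermat.Agent.LT.T3.Spec

/-!
# LT / A2.04 `Poisson2C` (helper534)

`Poisson2C` (Poisson summation on `𝔸_K²` for the pairing `ψ ∘ B`) from the interface Props
`T1.LocCompC`, `T1.AdeleLatticeC`, `T1.AddFundDomC`, `T3.PerpC`, by the abstract Poisson summation
formula of `LT/T3/H534/PoissonAbs.lean` applied DIRECTLY to `G = 𝔸_K × 𝔸_K`, `Γ = K × K` and the
characters `y ↦ ψ(B(ξ, y))`, `ξ ∈ K²` (no iteration of the one-dimensional formula).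
-/

set_option autoImplicit false
set_option linter.style.haveILetI false
set_option linter.unusedSectionVars false

noncomputable section

namespace Fermat.Agent.LT.A2.H534

open MeasureTheory NumberField Set TopologicalSpace
open scoped Pointwise
open Fermat.Agent.LT Fermat.Agent.LT.H556 Fermat.Agent.LT.T3.H534

/-! ### Products of fundamental domains -/

section ProdFD

variable {G₁ G₂ : Type*} [AddGroup G₁] [AddGroup G₂] [MeasurableSpace G₁] [MeasurableSpace G₂]
  {Γ₁ : AddSubgroup G₁} {Γ₂ : AddSubgroup G₂} {μ₁ : Measure G₁} {μ₂ : Measure G₂}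
  {D₁ : Set G₁} {D₂ : Set G₂}

lemma vadd_prod534 (g : Γ₁.prod Γ₂) :
    g +ᵥ (D₁ ×ˢ D₂) = ((g : G₁ × G₂).1 +ᵥ D₁) ×ˢ ((g : G₁ × G₂).2 +ᵥ D₂) := by
  ext ⟨x, y⟩
  simp only [Set.mem_vadd_set, Set.mem_prod]
  constructor
  · rintro ⟨⟨a, b⟩, ⟨ha, hb⟩, hab⟩
    have h1 : (g : G₁ × G₂).1 + a = x := congrArg Prod.fst hab
    have h2 : (g : G₁ × G₂).2 + b = y := congrArg Prod.snd hab
    exact ⟨⟨a, ha, h1⟩, ⟨b, hb, h2⟩⟩
  · rintro ⟨⟨a, ha, h1⟩, ⟨b, hb, h2⟩⟩
    refine ⟨(a, b), ⟨ha, hb⟩, ?_⟩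
    change ((g : G₁ × G₂).1 + a, (g : G₁ × G₂).2 + b) = (x, y)
    rw [← h1, ← h2]
    rfl

theorem isAddFundamentalDomain_prod534 [SFinite μ₁] [SFinite μ₂]
    (h₁ : IsAddFundamentalDomain Γ₁ D₁ μ₁) (h₂ : IsAddFundamentalDomain Γ₂ D₂ μ₂) :
    IsAddFundamentalDomain (Γ₁.prod Γ₂) (D₁ ×ˢ D₂) (μ₁.prod μ₂) where
  nullMeasurableSet := h₁.nullMeasurableSet.prod h₂.nullMeasurableSet
  ae_covers := by
    have e1 := Measure.quasiMeasurePreserving_fst (μ := μ₁) (ν := μ₂) |>.ae h₁.ae_covers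
    have e2 := Measure.quasiMeasurePreserving_snd (μ := μ₁) (ν := μ₂) |>.ae h₂.ae_covers
    filter_upwards [e1, e2] with z hz1 hz2
    obtain ⟨g1, hg1⟩ := hz1
    obtain ⟨g2, hg2⟩ := hz2
    exact ⟨⟨(g1, g2), ⟨g1.2, g2.2⟩⟩, hg1, hg2⟩
  aedisjoint := by
    intro g g' hgg'
    change μ₁.prod μ₂ ((g +ᵥ (D₁ ×ˢ D₂)) ∩ (g' +ᵥ (D₁ ×ˢ D₂))) = 0
    rw [vadd_prod534, vadd_prod534, Set.prod_inter_prod, Measure.prod_prod]
    have hne : (g : G₁ × G₂).1 ≠ (g' : G₁ × G₂).1 ∨ (g : G₁ × G₂).2 ≠ (g' : G₁ × G₂).2 := by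
      by_contra hcon
      simp only [not_or, not_not] at hcon
      exact hgg' (Subtype.ext (Prod.ext hcon.1 hcon.2))
    rcases hne with h | h
    · have := h₁.aedisjoint (i := ⟨(g : G₁ × G₂).1, g.2.1⟩) (j := ⟨(g' : G₁ × G₂).1, g'.2.1⟩)
        (fun hh => h (congrArg Subtype.val hh))
      have h0 : μ₁ (((g : G₁ × G₂).1 +ᵥ D₁) ∩ ((g' : G₁ × G₂).1 +ᵥ D₁)) = 0 := this
      rw [h0, zero_mul]
    · have := h₂.aedisjoint (i := ⟨(g : G₁ × G₂).2, g.2.2⟩) (j := ⟨(g' : G₁ × G₂).2, g'.2.2⟩)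
        (fun hh => h (congrArg Subtype.val hh))
      have h0 : μ₂ (((g : G₁ × G₂).2 +ᵥ D₂) ∩ ((g' : G₁ × G₂).2 +ᵥ D₂)) = 0 := this
      rw [h0, mul_zero]

end ProdFD


/-! ### The bilinear form -/

section Bf

variable {K : Type} [Field K] [NumberField K]

/-- The diagonal embedding. -/
abbrev em534 : K →+* A0.Adl K := algebraMap K (A0.Adl K)

lemma bf_eq534 (t n : K) (ξ y : A0.Adl K × A0.Adl K) :
    bf t n ξ y = (2 * ξ.1 + em534 t * ξ.2) * y.1 + (em534 t * ξ.1 + 2 * em534 n * ξ.2) * y.2 := by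
  simp only [bf, qf, Prod.fst_add, Prod.snd_add]
  ring

lemma bf_add_right534 (t n : K) (ξ y y' : A0.Adl K × A0.Adl K) :
    bf t n ξ (y + y') = bf t n ξ y + bf t n ξ y' := by
  simp only [bf_eq534, Prod.fst_add, Prod.snd_add]
  ring

lemma bf_add_left534 (t n : K) (ξ η y : A0.Adl K × A0.Adl K) :
    bf t n (ξ + η) y = bf t n ξ y + bf t n η y := by
  simp only [bf_eq534, Prod.fst_add, Prod.snd_add]
  ring

lemma ratV_add534 (ξ η : K × K) : ratV (ξ + η) = ratV ξ + ratV η := by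
  simp only [ratV, Prod.fst_add, Prod.snd_add, map_add]
  rfl

lemma ratV_zero534 : ratV (0 : K × K) = 0 := by
  simp only [ratV, Prod.fst_zero, Prod.snd_zero, map_zero]
  rfl

lemma ratV_neg534 (ξ : K × K) : ratV (-ξ) = -ratV ξ := by
  simp only [ratV, Prod.fst_neg, Prod.snd_neg, map_neg]
  rfl

lemma bf_ratV534 (t n : K) (ξ γ : K × K) :
    bf t n (ratV ξ) (ratV γ)
      = em534 ((2 * ξ.1 + t * ξ.2) * γ.1 + (t * ξ.1 + 2 * n * ξ.2) * γ.2) := by
  simp only [bf_eq534, ratV, map_add, map_mul, map_ofNat]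

lemma continuous_bf534 (t n : K) (ξ : A0.Adl K × A0.Adl K) : Continuous (bf t n ξ) := by
  have : bf t n ξ = fun y => (2 * ξ.1 + em534 t * ξ.2) * y.1
      + (em534 t * ξ.1 + 2 * em534 n * ξ.2) * y.2 := funext (bf_eq534 t n ξ)
  rw [this]
  fun_prop

lemma em_injective534 : Function.Injective (em534 (K := K)) :=
  NumberField.AdeleRing.algebraMap_injective (𝓞 K) K

instance countable534 : Countable K :=
  (Module.finBasis ℚ K).equivFun.toEquiv.countable_iff.2 inferInstance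

end Bf


/-! ### The lattice `K × K` in `𝔸_K × 𝔸_K` -/

section Lat

variable (K : Type) [Field K] [NumberField K]

/-- The lattice `K × K` in `𝔸_K × 𝔸_K`. -/
def lat534 : AddSubgroup (A0.Adl K × A0.Adl K) := (T1.princ K).prod (T1.princ K)

variable {K}

lemma mem_princ534 (ξ : K) : em534 ξ ∈ T1.princ K := ⟨ξ, rfl⟩

lemma ratV_mem534 (ξ : K × K) : ratV ξ ∈ lat534 K := ⟨mem_princ534 ξ.1, mem_princ534 ξ.2⟩

lemma exists_ratV534 {γ : A0.Adl K × A0.Adl K} (hγ : γ ∈ lat534 K) : ∃ ξ : K × K, ratV ξ = γ := by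
  obtain ⟨⟨a, ha⟩, ⟨b, hb⟩⟩ := hγ
  exact ⟨(a, b), Prod.ext ha hb⟩

lemma ratV_injective534 : Function.Injective (ratV (K := K)) := by
  intro ξ η h
  have h1 : em534 ξ.1 = em534 η.1 := congrArg Prod.fst h
  have h2 : em534 ξ.2 = em534 η.2 := congrArg Prod.snd h
  exact Prod.ext (em_injective534 h1) (em_injective534 h2)

variable (K) in
/-- `K × K ≃ lat534 K`. -/
def latEquiv534 : K × K ≃ lat534 K :=
  Equiv.ofBijective (fun ξ => ⟨ratV ξ, ratV_mem534 ξ⟩)
    ⟨fun ξ η h => ratV_injective534 (congrArg Subtype.val h),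
      fun γ => by
        obtain ⟨ξ, hξ⟩ := exists_ratV534 γ.2
        exact ⟨ξ, Subtype.ext hξ⟩⟩

@[simp] lemma latEquiv_coe534 (ξ : K × K) : ((latEquiv534 K ξ : lat534 K) : A0.Adl K × A0.Adl K)
    = ratV ξ := rfl

instance countable_lat534 : Countable (lat534 K) := (latEquiv534 K).symm.injective.countable

lemma compactSpace_quot534 (hLat : T1.AdeleLatticeC K) :
    CompactSpace ((A0.Adl K × A0.Adl K) ⧸ lat534 K) := by
  obtain ⟨-, -, C, hC, hcov⟩ := hLat
  refine ⟨?_⟩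
  have huniv : (univ : Set ((A0.Adl K × A0.Adl K) ⧸ lat534 K))
      = (QuotientAddGroup.mk : A0.Adl K × A0.Adl K → (A0.Adl K × A0.Adl K) ⧸ lat534 K)
        '' (C ×ˢ C) := by
    ext z
    simp only [mem_univ, true_iff]
    induction z using QuotientAddGroup.induction_on with
    | H p =>
      obtain ⟨ξ₁, h1⟩ := hcov p.1
      obtain ⟨ξ₂, h2⟩ := hcov p.2
      refine ⟨(p.1 - em534 ξ₁, p.2 - em534 ξ₂), ⟨h1, h2⟩, ?_⟩
      rw [QuotientAddGroup.eq]
      have : -(p.1 - em534 ξ₁, p.2 - em534 ξ₂) + p = ratV (ξ₁, ξ₂) := by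
        apply Prod.ext
        · change -(p.1 - em534 ξ₁) + p.1 = em534 ξ₁
          abel
        · change -(p.2 - em534 ξ₂) + p.2 = em534 ξ₂
          abel
      rw [this]
      exact ratV_mem534 _
  rw [huniv]
  exact (hC.prod hC).image continuous_quotient_mk'

end Lat

/-! ### The character system `y ↦ ψ(B(ξ, y))` -/

section Char

variable {K : Type} [Field K] [NumberField K]

/-- The `Circle`-valued additive character attached to an `IsAdeleChar`. -/
def toAddChar534 {ψ : A0.Adl K → ℂ} (hψ : IsAdeleChar ψ) : AddChar (A0.Adl K) Circle where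
  toFun x := ⟨ψ x, by
    change ψ x ∈ Metric.sphere (0 : ℂ) 1
    rw [mem_sphere_zero_iff_norm]
    exact hψ.norm_one x⟩
  map_zero_eq_one' := by
    apply Subtype.ext
    change ψ 0 = 1
    have h := hψ.map_add 0 0
    rw [add_zero] at h
    have h0 : ψ 0 ≠ 0 := by
      intro h0
      have := hψ.norm_one 0
      rw [h0, norm_zero] at this
      exact zero_ne_one this
    exact (mul_left_cancel₀ h0 (by rw [mul_one]; exact h)).symm
  map_add_eq_mul' x y := by
    apply Subtype.ext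
    change ψ (x + y) = ψ x * ψ y
    exact hψ.map_add x y

lemma toAddChar_coe534 {ψ : A0.Adl K → ℂ} (hψ : IsAdeleChar ψ) (x : A0.Adl K) :
    ((toAddChar534 hψ x : Circle) : ℂ) = ψ x := rfl

lemma toAddChar_eq_one534 {ψ : A0.Adl K → ℂ} (hψ : IsAdeleChar ψ) (x : A0.Adl K) :
    toAddChar534 hψ x = 1 ↔ ψ x = 1 := by
  constructor
  · intro h
    have := congrArg (fun z : Circle => (z : ℂ)) h
    simpa [toAddChar_coe534] using this
  · intro h
    apply Subtype.ext
    change ψ x = 1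
    exact h

lemma isStdChar534 {ψ : A0.Adl K → ℂ} (hψ : IsAdeleChar ψ) :
    T3.IsStdChar K (toAddChar534 hψ) where
  cont := by
    have : Continuous fun x : A0.Adl K => (⟨ψ x, by
        change ψ x ∈ Metric.sphere (0 : ℂ) 1
        rw [mem_sphere_zero_iff_norm]
        exact hψ.norm_one x⟩ : Circle) := hψ.cont.subtype_mk _
    exact this
  triv ξ := (toAddChar_eq_one534 hψ _).2 (hψ.triv ξ)
  nontriv := by
    obtain ⟨x, hx⟩ := hψ.nontriv
    exact ⟨x, fun h => hx ((toAddChar_eq_one534 hψ _).1 h)⟩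

/-- `K^⊥ = K` for an `IsAdeleChar`. -/
lemma perp534 (hPerp : T3.PerpC K) {ψ : A0.Adl K → ℂ} (hψ : IsAdeleChar ψ) (x : A0.Adl K)
    (hx : ∀ a : K, ψ (em534 a * x) = 1) : x ∈ T1.princ K := by
  obtain ⟨ξ₀, h⟩ := hPerp (toAddChar534 hψ) (isStdChar534 hψ) x (fun ξ => by
    rw [toAddChar_eq_one534, mul_comm]
    exact hx ξ)
  exact ⟨ξ₀, h.symm⟩

/-- a character which is trivial on `a 𝔸`, `a ∈ K`, forces `a = 0`. -/
lemma eq_zero_of_triv534 {ψ : A0.Adl K → ℂ} (hψ : IsAdeleChar ψ) (a : K)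
    (h : ∀ y : A0.Adl K, ψ (em534 a * y) = 1) : a = 0 := by
  by_contra ha
  obtain ⟨x, hx⟩ := hψ.nontriv
  apply hx
  have := h (em534 a⁻¹ * x)
  rwa [← mul_assoc, ← map_mul, mul_inv_cancel₀ ha, map_one, one_mul] at this

lemma bf_ratV_left534 (t n : K) (ξ : K × K) (y : A0.Adl K × A0.Adl K) :
    bf t n (ratV ξ) y
      = em534 (2 * ξ.1 + t * ξ.2) * y.1 + em534 (t * ξ.1 + 2 * n * ξ.2) * y.2 := by
  simp only [bf_eq534, ratV, map_add, map_mul, map_ofNat]

/-- The character system of `Poisson2C`. -/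
def charSys534 (t n : K) (hdisc : t ^ 2 - 4 * n ≠ 0) {ψ : A0.Adl K → ℂ} (hψ : IsAdeleChar ψ)
    (hPerp : T3.PerpC K) : CharSys534 (lat534 K) (K × K) where
  e ξ y := ψ (bf t n (ratV ξ) y)
  cont ξ := hψ.cont.comp (continuous_bf534 t n _)
  norm_one ξ y := hψ.norm_one _
  map_add ξ x y := by rw [bf_add_right534, hψ.map_add]
  add_map ξ η x := by rw [ratV_add534, bf_add_left534, hψ.map_add]
  triv ξ γ hγ := by
    obtain ⟨η, rfl⟩ := exists_ratV534 hγ
    rw [bf_ratV534]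
    exact hψ.triv _
  sep y hy := by
    by_contra hcon
    simp only [not_exists, not_not] at hcon
    have hΔ : 4 * n - t ^ 2 ≠ 0 := fun h => hdisc (by linear_combination -h)
    have hd : (4 * n - t ^ 2) * (4 * n - t ^ 2)⁻¹ = 1 := mul_inv_cancel₀ hΔ
    generalize (4 * n - t ^ 2)⁻¹ = d at hd
    apply hy
    constructor
    · apply perp534 hPerp hψ
      intro a
      have := hcon (2 * n * a * d, -(t * a) * d)
      rw [bf_ratV_left534] at this
      have e1 : 2 * (2 * n * a * d) + t * (-(t * a) * d) = a := by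
        linear_combination a * hd
      have e2 : t * (2 * n * a * d) + 2 * n * (-(t * a) * d) = 0 := by
        ring
      simpa only [e1, e2, map_zero, zero_mul, add_zero] using this
    · apply perp534 hPerp hψ
      intro b
      have := hcon (-(t * b) * d, 2 * b * d)
      rw [bf_ratV_left534] at this
      have e1 : 2 * (-(t * b) * d) + t * (2 * b * d) = 0 := by
        ring
      have e2 : t * (-(t * b) * d) + 2 * n * (2 * b * d) = b := by
        linear_combination b * hd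
      simpa only [e1, e2, map_zero, zero_mul, zero_add] using this
  inj ξ h := by
    have hΔ : 4 * n - t ^ 2 ≠ 0 := fun h => hdisc (by linear_combination -h)
    have ha : 2 * ξ.1 + t * ξ.2 = 0 := by
      apply eq_zero_of_triv534 hψ
      intro y
      have := h (y, 0)
      rw [bf_ratV_left534] at this
      simpa only [mul_zero, add_zero] using this
    have hb : t * ξ.1 + 2 * n * ξ.2 = 0 := by
      apply eq_zero_of_triv534 hψ
      intro y
      have := h (0, y)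
      rw [bf_ratV_left534] at this
      simpa only [mul_zero, zero_add] using this
    have h1 : (4 * n - t ^ 2) * ξ.1 = 0 := by linear_combination 2 * n * ha - t * hb
    have h2 : (4 * n - t ^ 2) * ξ.2 = 0 := by linear_combination 2 * hb - t * ha
    exact Prod.ext ((mul_eq_zero.1 h1).resolve_left hΔ) ((mul_eq_zero.1 h2).resolve_left hΔ)

end Char


/-! ### The leaf -/

/-- **A2.04 `Poisson2C`** from the interface Props of T1 (local compactness, lattice,
fundamental domain) and T3 (`K^⊥ = K`). -/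
theorem poisson2_of534
    (hLC : ∀ (K : Type) [Field K] [NumberField K], T1.LocCompC K)
    (hLat : ∀ (K : Type) [Field K] [NumberField K], T1.AdeleLatticeC K)
    (hFD : ∀ (K : Type) [Field K] [NumberField K], T1.AddFundDomC K)
    (hPerp : ∀ (K : Type) [Field K] [NumberField K], T3.PerpC K) : Poisson2C := by
  intro K _ _ t n hdisc ψ hψ μ hμ Φ hΦc hΦi hΦs hΦhat
  letI : MeasurableSpace (A0.Adl K) := borel (A0.Adl K)
  haveI : BorelSpace (A0.Adl K) := ⟨rfl⟩
  obtain ⟨⟨hlc, -, hsc⟩, -⟩ := hLC K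
  haveI := hlc
  haveI := hsc
  obtain ⟨hHaar, hcov1⟩ := hμ
  haveI := hHaar
  obtain ⟨D, -, hD, -, -, -⟩ := hFD K μ hHaar
  have hD1 : μ D = 1 := hcov1 D hD
  haveI := compactSpace_quot534 (hLat K)
  have hD2 : IsAddFundamentalDomain (lat534 K) (D ×ˢ D) (μ.prod μ) :=
    isAddFundamentalDomain_prod534 hD hD
  have hvol : (μ.prod μ) (D ×ˢ D) = 1 := by rw [Measure.prod_prod, hD1, one_mul]
  set S := charSys534 t n hdisc hψ (hPerp K) with hS
  -- local normal summability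
  have hloc : ∀ C : Compacts (A0.Adl K × A0.Adl K), Summable fun γ : lat534 K =>
      ‖((⟨Φ, hΦc⟩ : C(A0.Adl K × A0.Adl K, ℂ)).comp
        (ContinuousMap.addRight (γ : A0.Adl K × A0.Adl K))).restrict C‖ := by
    intro C
    obtain ⟨b, hb, hbound⟩ := hΦs ((C : Set (A0.Adl K × A0.Adl K)) ∪ {0})
      (C.isCompact.union isCompact_singleton)
    have hb0 : ∀ ξ, 0 ≤ b ξ := fun ξ =>
      (norm_nonneg _).trans (hbound ξ 0 (Or.inr rfl))
    rw [← (latEquiv534 K).summable_iff]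
    refine Summable.of_nonneg_of_le (fun ξ => norm_nonneg _) (fun ξ => ?_) hb
    rw [Function.comp_apply, ContinuousMap.norm_le _ (hb0 ξ)]
    intro x
    exact hbound ξ x (Or.inl x.2)
  -- summability of the coefficients
  have hcoef : ∀ ξ : K × K, S.coeff534 (μ.prod μ) Φ ξ
      = integral2 μ fun y => Φ y * ψ (bf t n (ratV (-ξ)) y) := fun ξ => rfl
  have hc : Summable fun ξ : K × K => ‖S.coeff534 (μ.prod μ) Φ ξ‖ := by
    simp only [hcoef]
    exact (Equiv.neg (K × K)).summable_iff.2 hΦhat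
  have main := S.poisson_pointwise534 hD2 (by rw [hvol]; exact ENNReal.one_ne_top)
    ⟨Φ, hΦc⟩ hΦi hloc hc 0
  rw [hvol] at main
  simp only [ENNReal.toReal_one, Complex.ofReal_one, one_mul, zero_add, ContinuousMap.coe_mk,
    S.map_zero534, mul_one] at main
  have hL : ∑' γ : lat534 K, Φ (γ : A0.Adl K × A0.Adl K) = ∑' ξ : K × K, Φ (ratV ξ) := by
    rw [← (latEquiv534 K).tsum_eq]
    rfl
  have hR : ∑' ξ : K × K, S.coeff534 (μ.prod μ) Φ ξ
      = ∑' ξ : K × K, integral2 μ fun y => Φ y * ψ (bf t n (ratV ξ) y) := by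
    simp only [hcoef]
    exact (Equiv.neg (K × K)).tsum_eq (fun ξ => integral2 μ fun y => Φ y * ψ (bf t n (ratV ξ) y))
  rw [← hL, ← hR]
  exact main

end Fermat.Agent.LT.A2.H534

end
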